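import Mathlib
import Fermat.Agent.LT.H129.EllParamSpec

/-!
# Row LT, tower T6, sub-leaf T6.14b.L5: `H129.ReprFinC129` PROVED (helper437)

Registry row 1168.  Statement = `Fermat.Agent.LT.H129.ReprFinC129` of
`LT/H129/EllParamSpec.lean` (helper129@6c63cff25), VERBATIM.

Route (as in the row): `ϖ` a uniformiser, `T` the finite residue system; by induction on `n` there
is a finite set `D n` such that every integral `x` is within `exp (-n)` of an element of `D n`
(`D (n+1) = {d + ϖ ^ n * t}`); a system of representatives `B` of `𝒪 / ϖⁿ` injects into `D n` by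
the uniqueness clause of `IsReprMod`.  Only the fields `unif` and `residue` (covering part) of
`IsLocalField` are used.
-/

set_option autoImplicit false

namespace Fermat.Agent.LT.T6.H437

open Fermat.Agent.LT.T6 Fermat.Agent.LT.T6.H847

variable {k : Type} [Field k] [Valued k Γ₀]

/-- In `ℤᵐ⁰`, `x < 1` implies `x ≤ exp (-1)`. -/
theorem le_exp_neg_one_of_lt_one437 {x : Γ₀} (hx : x < 1) : x ≤ WithZero.exp (-1 : ℤ) := by
  have h := (WithZero.lt_mul_exp_iff_le (x := x) (y := WithZero.exp (-1 : ℤ))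
    WithZero.exp_ne_zero).mp
  apply h
  rw [← WithZero.exp_add]
  simpa using hx

/-- Finite `exp (-n)`-nets of the ring of integers. -/
theorem exists_net437 (ϖ : k) (hϖ : Valued.v ϖ = WithZero.exp (-1 : ℤ)) (T : Finset k)
    (hT : ∀ z : k, Valued.v z ≤ 1 → ∃ x ∈ T, Valued.v (z - x) < 1) (n : ℕ) :
    ∃ D : Finset k, ∀ x : k, Valued.v x ≤ 1 →
      ∃ d ∈ D, Valued.v (x - d) ≤ WithZero.exp (-(n : ℤ)) := by
  classical
  induction n with
  | zero =>
    refine ⟨{0}, fun x hx => ⟨0, by simp, ?_⟩⟩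
    simpa using hx
  | succ n ih =>
    obtain ⟨D, hD⟩ := ih
    refine ⟨(D ×ˢ T).image (fun p => p.1 + ϖ ^ n * p.2), fun x hx => ?_⟩
    obtain ⟨d, hd, hxd⟩ := hD x hx
    have hϖ0 : ϖ ≠ 0 := by
      intro h
      rw [h, map_zero] at hϖ
      exact WithZero.exp_ne_zero hϖ.symm
    have hpow0 : ϖ ^ n ≠ 0 := pow_ne_zero n hϖ0
    have hvn : Valued.v (ϖ ^ n) = WithZero.exp (-(n : ℤ)) := by
      rw [map_pow, hϖ, ← WithZero.exp_nsmul]
      simp
    have hy1 : Valued.v ((x - d) / ϖ ^ n) ≤ 1 := by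
      rw [map_div₀, hvn, div_le_iff₀ WithZero.exp_pos, one_mul]
      exact hxd
    obtain ⟨t, ht, hyt⟩ := hT _ hy1
    refine ⟨d + ϖ ^ n * t,
      Finset.mem_image.mpr ⟨(d, t), Finset.mem_product.mpr ⟨hd, ht⟩, rfl⟩, ?_⟩
    have e : x - (d + ϖ ^ n * t) = ϖ ^ n * ((x - d) / ϖ ^ n - t) := by
      field_simp
      ring
    rw [e, map_mul, hvn]
    have h1 : Valued.v ((x - d) / ϖ ^ n - t) ≤ WithZero.exp (-1 : ℤ) :=
      le_exp_neg_one_of_lt_one437 hyt
    calc WithZero.exp (-(n : ℤ)) * Valued.v ((x - d) / ϖ ^ n - t)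
        ≤ WithZero.exp (-(n : ℤ)) * WithZero.exp (-1 : ℤ) := by gcongr
      _ = WithZero.exp (-((n + 1 : ℕ) : ℤ)) := by
        rw [← WithZero.exp_add]
        congr 1
        push_cast
        ring

/-- **T6.14b.L5**, with the fields of `IsLocalField` that are used. -/
theorem reprFin_of437 (ϖ : k) (hϖ : Valued.v ϖ = WithZero.exp (-1 : ℤ)) (T : Finset k)
    (hT : ∀ z : k, Valued.v z ≤ 1 → ∃ x ∈ T, Valued.v (z - x) < 1)
    (n : ℕ) (B : Set k) (hB : IsReprMod n B) : B.Finite := by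
  classical
  obtain ⟨D, hD⟩ := exists_net437 ϖ hϖ T hT n
  have hex : ∀ b : B, ∃ d ∈ D, Valued.v ((b : k) - d) ≤ WithZero.exp (-(n : ℤ)) :=
    fun b => hD b (hB.1 b b.2)
  choose f hfD hf using hex
  have hinj : Function.Injective (fun b : B => (⟨f b, hfD b⟩ : D)) := by
    intro b b' hbb
    have hfb : f b = f b' := congrArg Subtype.val hbb
    obtain ⟨c, -, hc⟩ := hB.2 b (hB.1 b b.2)
    have h1 : (b : k) = c := hc b ⟨b.2, by simp⟩
    have h2 : (b' : k) = c := by
      refine hc b' ⟨b'.2, ?_⟩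
      have e : (b : k) - b' = ((b : k) - f b) - ((b' : k) - f b') := by
        rw [hfb]
        ring
      rw [e]
      exact (Valuation.map_sub _ _ _).trans (max_le (hf b) (hf b'))
    exact Subtype.ext (h1.trans h2.symm)
  exact Set.finite_coe_iff.mp (Finite.of_injective _ hinj)

/-- **T6.14b.L5 `ReprFinC129`**, VERBATIM. -/
theorem reprFinC129_holds437 : Fermat.Agent.LT.H129.ReprFinC129 := by
  intro k _ _ q h n B hB
  obtain ⟨ϖ, hϖ⟩ := h.unif
  obtain ⟨T, -, -, -, hT⟩ := h.residue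
  exact reprFin_of437 ϖ hϖ T hT n B hB

end Fermat.Agent.LT.T6.H437
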